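import Fermat.Agent.LT.CFT.H681.DictSpec

/-!
# LT / tower CFT / DICT, leaf `CFT.14.1` `CharFactorC` (helper953, spare)

Proved VERBATIM against `LT/CFT/H681/DictSpec.lean` (helper681@ed6b15c6a, sha256 23c97034…).

A character `χ : U → ℂˣ` which is trivial on `U ∩ Gal(ℚ̄/F)`, `F` a number field, factors through
the restriction map `U → Hom_ℚ (F, ℚ̄)` to a FINITE set; so its image is a finite subgroup of
`ℂˣ`, hence cyclic of some order `n ≠ 0`, and `χ = e ∘ χ₁` with
`χ₁ : U → image ≃ Multiplicative (ZMod n)` (level-constant, level field `F`).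
-/

set_option autoImplicit false

noncomputable section

namespace Fermat.Agent.LT.CFT.H953

open Fermat.Agent.LT.CFT Fermat.Agent.LT.CFT.H681 groupCohomology

local notation "Qb" => AlgebraicClosure ℚ
local notation "GQ" => (AlgebraicClosure ℚ ≃ₐ[ℚ] AlgebraicClosure ℚ)

/-- The image of a character trivial on `U ∩ Gal(ℚ̄/F)` is finite. -/
theorem finite_range_of_level953 {M : Type*} [Group M] (U : Subgroup GQ) (χ : ↥U →* M)
    (F : IntermediateField ℚ Qb) [FiniteDimensional ℚ F]
    (h : ∀ σ : ↥U, (σ : GQ) ∈ F.fixingSubgroup → χ σ = 1) :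
    (Set.range χ).Finite := by
  classical
  -- the restriction map to the finite set `Hom_ℚ (F, ℚ̄)`
  set restr : ↥U → (↥F →ₐ[ℚ] Qb) := fun σ => ((σ : GQ) : Qb →ₐ[ℚ] Qb).comp F.val with hrestr
  have hkey : ∀ σ τ : ↥U, restr σ = restr τ → χ σ = χ τ := by
    intro σ τ hστ
    have h1 : ((σ⁻¹ * τ : ↥U) : GQ) ∈ F.fixingSubgroup := by
      rw [IntermediateField.mem_fixingSubgroup_iff]
      intro x hx
      have h2 : (σ : GQ) x = (τ : GQ) x := DFunLike.congr_fun hστ ⟨x, hx⟩
      show ((σ : GQ)⁻¹ * (τ : GQ)) x = x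
      rw [AlgEquiv.mul_apply, ← h2]
      exact AlgEquiv.symm_apply_apply (σ : GQ) x
    have h3 := h _ h1
    rw [map_mul, map_inv, inv_mul_eq_one] at h3
    exact h3
  have hsub : Set.range χ ⊆
      Set.range (fun r : Set.range restr => χ (Classical.choose r.2)) := by
    rintro _ ⟨σ, rfl⟩
    refine ⟨⟨restr σ, σ, rfl⟩, ?_⟩
    exact hkey _ _ (Classical.choose_spec (⟨σ, rfl⟩ : ∃ y, restr y = restr σ))
  exact (Set.finite_range _).subset hsub

/-- **Leaf `CFT.14.1` (CHAR) of DICT.** -/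
theorem charFactor953 : CharFactorC := by
  intro U χ hfin
  obtain ⟨F, hF, h⟩ := hfin
  have := hF
  have hfinR : (Set.range χ).Finite := finite_range_of_level953 U χ F h
  have : Finite ↥χ.range := by
    have h1 : Finite ↥(Set.range χ) := hfinR.to_subtype
    exact h1
  have hcyc : IsCyclic ↥χ.range := inferInstance
  set n : ℕ := Nat.card ↥χ.range with hn
  have hn0 : n ≠ 0 := Nat.card_pos.ne'
  set E : Multiplicative (ZMod n) ≃* ↥χ.range := zmodCyclicMulEquiv hcyc with hE
  refine ⟨n, E.symm.toMonoidHom.comp χ.rangeRestrict, χ.range.subtype.comp E.toMonoidHom,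
    hn0, ⟨F, hF, fun g s hs => ?_⟩, fun σ => ?_⟩
  · have h1 : χ s = 1 := h s hs
    have h2 : χ.rangeRestrict s = 1 := Subtype.ext h1
    show E.symm (χ.rangeRestrict (g * s)) = E.symm (χ.rangeRestrict g)
    rw [map_mul, h2, mul_one]
  · show χ σ = ((E (E.symm (χ.rangeRestrict σ)) : ↥χ.range) : ℂˣ)
    rw [MulEquiv.apply_symm_apply]
    rfl

end Fermat.Agent.LT.CFT.H953
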